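import Fermat.Agent.SchurCover.Multiplier
import Mathlib.GroupTheory.NoncommPiCoprod
import Mathlib.GroupTheory.NoncommCoprod
import Mathlib.RingTheory.RootsOfUnity.PrimitiveRoots
import Mathlib.RingTheory.RootsOfUnity.AlgebraicallyClosed

/-!
# The multiplier of `C_p × C_p`

The pairing `c ↦ c (x, y) / c (y, x)` of two commuting elements identifies the multiplier of
`C_p × C_p` with the `p`-th roots of unity.
-/

set_option autoImplicit false
set_option linter.style.haveILetI false

noncomputable section

namespace FA.SchurCover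

variable {G A : Type*} [Group G] [CommGroup A]

/-- The commutator pairing of two commuting elements. -/
def commPair {x y : G} (hxy : x * y = y * x) : H2 G A →* A :=
  QuotientGroup.lift (cobound G A).range
    (MonoidHom.mk' (fun c => c.1 (x, y) / c.1 (y, x)) fun c d => by
      rw [Subgroup.coe_mul, Pi.mul_apply, Pi.mul_apply, mul_div_mul_comm])
    (by
      rintro _ ⟨f, rfl⟩
      rw [MonoidHom.mem_ker, MonoidHom.mk'_apply, cobound_apply, cobound_apply, hxy,
        mul_comm (f x), div_self'])

theorem commPair_cls {x y : G} (hxy : x * y = y * x) (c : cocycles G A) :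
    commPair hxy (cls G A c) = c.1 (x, y) / c.1 (y, x) := rfl

theorem sec_swap {c : cocycles G A} {x y : G} (hxy : x * y = y * x) :
    CExt.sec c x * CExt.sec c y =
      CExt.incl c (commPair hxy (cls G A c)) * (CExt.sec c y * CExt.sec c x) := by
  rw [CExt.sec_mul_sec, CExt.sec_mul_sec, ← mul_assoc, ← map_mul, commPair_cls, div_mul_cancel,
    hxy]

/-- The pairing is killed by the exponent of its first argument. -/
theorem commPair_pow {x y : G} (hxy : x * y = y * x) {n : ℕ} (hx : x ^ n = 1) (z : H2 G A) :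
    commPair hxy z ^ n = 1 := by
  obtain ⟨c, rfl⟩ := cls_surjective z
  set b := commPair hxy (cls G A c)
  have hind : ∀ m : ℕ, CExt.sec c x ^ m * CExt.sec c y =
      CExt.incl c (b ^ m) * (CExt.sec c y * CExt.sec c x ^ m) := fun m => by
    induction m with
    | zero => simp
    | succ m ih =>
      have hcen := Subgroup.mem_center_iff.1 (CExt.incl_mem_center (c := c) b)
      rw [pow_succ, mul_assoc, sec_swap hxy, ← mul_assoc, hcen, mul_assoc,
        ← mul_assoc (CExt.sec c x ^ m), ih, pow_succ', map_mul]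
      simp only [mul_assoc]
  obtain ⟨a, ha⟩ : CExt.sec c x ^ n ∈ (CExt.incl c).range := by
    rw [← CExt.ker_proj, MonoidHom.mem_ker, map_pow, CExt.proj_sec, hx]
  have h := hind n
  rw [← ha, Subgroup.mem_center_iff.1 (CExt.incl_mem_center a) (CExt.sec c y)] at h
  exact CExt.incl_injective ((right_eq_mul.1 h).trans (map_one _).symm)

variable {k : Type*} [Field k] [IsAlgClosed k]

/-- The square of a cyclic group of order `p`. -/
abbrev Square (p : ℕ) := Multiplicative (ZMod p) × Multiplicative (ZMod p)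

variable {p : ℕ}

theorem mem_zpowers_one [NeZero p] (z : Multiplicative (ZMod p)) :
    z ∈ Subgroup.zpowers (Multiplicative.ofAdd (1 : ZMod p)) :=
  ⟨(Multiplicative.toAdd z).cast, by
    show Multiplicative.ofAdd ((Multiplicative.toAdd z).cast • (1 : ZMod p)) = z
    rw [zsmul_one, ZMod.intCast_zmod_cast, ofAdd_toAdd]⟩

/-- The first generator. -/
def genLeft (p : ℕ) : Square p := (Multiplicative.ofAdd 1, 1)

/-- The second generator. -/
def genRight (p : ℕ) : Square p := (1, Multiplicative.ofAdd 1)

theorem gen_comm : genLeft p * genRight p = genRight p * genLeft p := mul_comm _ _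

/-- The pairing is injective on the multiplier of `C_p × C_p`. -/
theorem commPair_injective [NeZero p] :
    Function.Injective (commPair (A := kˣ) (gen_comm (p := p))) := by
  refine (injective_iff_map_eq_one _).2 fun z hz => ?_
  obtain ⟨c, rfl⟩ := cls_surjective z
  have hp : p ≠ 0 := NeZero.ne p
  have hord : orderOf (Multiplicative.ofAdd (1 : ZMod p)) = p := by
    rw [orderOf_ofAdd_eq_addOrderOf, ZMod.addOrderOf_one]
  have lift : ∀ g : Square p, g ^ p = 1 →
      ∃ b, (CExt.incl c b * CExt.sec c g) ^ p = 1 := fun g hg => by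
    obtain ⟨a, ha⟩ : CExt.sec c g ^ p ∈ (CExt.incl c).range := by
      rw [← CExt.ker_proj, MonoidHom.mem_ker, map_pow, CExt.proj_sec, hg]
    obtain ⟨b, hb⟩ := exists_pow_units hp a⁻¹
    refine ⟨b, ?_⟩
    rw [(show Commute (CExt.incl c b) (CExt.sec c g) from
      (Subgroup.mem_center_iff.1 (CExt.incl_mem_center b) _).symm).mul_pow, ← map_pow, hb, map_inv,
      ha, inv_mul_cancel]
  have hgp : ∀ z : Multiplicative (ZMod p), z ^ p = 1 := fun z => by
    obtain ⟨m, rfl⟩ := mem_zpowers_one z
    show (Multiplicative.ofAdd (1 : ZMod p) ^ m) ^ p = 1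
    rw [← zpow_natCast, zpow_comm, zpow_natCast,
      orderOf_dvd_iff_pow_eq_one.1 (dvd_of_eq hord), one_zpow]
  obtain ⟨a, ha⟩ := lift (genLeft p) (Prod.ext (hgp _) (one_pow p))
  obtain ⟨b, hb⟩ := lift (genRight p) (Prod.ext (one_pow p) (hgp _))
  set X := CExt.incl c a * CExt.sec c (genLeft p)
  set Y := CExt.incl c b * CExt.sec c (genRight p)
  have hXY : Commute X Y := by
    have h1 : Commute (CExt.sec c (genLeft p)) (CExt.sec c (genRight p)) := by
      show _ = _
      rw [sec_swap gen_comm, hz, map_one, one_mul]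
    have hc : ∀ (w : kˣ) (e : CExt c), Commute (CExt.incl c w) e := fun w e =>
      (Subgroup.mem_center_iff.1 (CExt.incl_mem_center w) e).symm
    exact ((hc a _).mul_left ((hc b _).symm.mul_right h1))
  let φX := monoidHomOfForallMemZpowers mem_zpowers_one (g' := X)
    (by rw [hord]; exact orderOf_dvd_of_pow_eq_one ha)
  let φY := monoidHomOfForallMemZpowers mem_zpowers_one (g' := Y)
    (by rw [hord]; exact orderOf_dvd_of_pow_eq_one hb)
  have hX : ∀ m : ℤ, φX (Multiplicative.ofAdd (1 : ZMod p) ^ m) = X ^ m := fun m => by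
    rw [map_zpow, monoidHomOfForallMemZpowers_apply_gen]
  have hY : ∀ m : ℤ, φY (Multiplicative.ofAdd (1 : ZMod p) ^ m) = Y ^ m := fun m => by
    rw [map_zpow, monoidHomOfForallMemZpowers_apply_gen]
  let φ : Square p →* CExt c := φX.noncommCoprod φY fun u v => by
    obtain ⟨i, rfl⟩ := mem_zpowers_one u
    obtain ⟨j, rfl⟩ := mem_zpowers_one v
    simp only [hX, hY]
    exact (hXY.zpow_left i).zpow_right j
  refine CExt.cls_eq_one_of_hom φ fun g => ?_
  obtain ⟨u, v⟩ := g
  obtain ⟨i, rfl⟩ := mem_zpowers_one u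
  obtain ⟨j, rfl⟩ := mem_zpowers_one v
  show CExt.proj c (φX _ * φY _) = _
  simp only [hX, hY, map_mul, map_zpow, X, Y, CExt.proj_sec]
  refine Prod.ext ?_ ?_ <;> simp [genLeft, genRight, CExt.incl, CExt.proj]

/-- **The multiplier of `C_p × C_p` has order `p`.** -/
theorem card_square [CharZero k] [hp : Fact p.Prime] : Nat.card (H2 (Square p) kˣ) = p := by
  haveI : NeZero p := ⟨hp.out.ne_zero⟩
  obtain ⟨ζ, hζ⟩ := HasEnoughRootsOfUnity.exists_primitiveRoot k p
  obtain ⟨u, rfl⟩ := hζ.isUnit hp.out.ne_zero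
  have hu : IsPrimitiveRoot u p := IsPrimitiveRoot.coe_units_iff.1 hζ
  let e : Multiplicative (ZMod p) →* kˣ := monoidHomOfForallMemZpowers mem_zpowers_one (g' := u)
    (by rw [orderOf_ofAdd_eq_addOrderOf, ZMod.addOrderOf_one, ← hu.eq_orderOf])
  let c : cocycles (Square p) kˣ :=
    ⟨fun x => e (Multiplicative.ofAdd (Multiplicative.toAdd x.1.1 * Multiplicative.toAdd x.2.2)),
      fun g h j => by
        show e _ * e _ = e _ * e _
        rw [← map_mul e, ← map_mul e, ← ofAdd_add, ← ofAdd_add]
        refine congrArg e (congrArg Multiplicative.ofAdd ?_)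
        simp only [Prod.fst_mul, Prod.snd_mul, toAdd_mul]
        ring⟩
  have hc : commPair gen_comm (cls (Square p) kˣ c) = u := by
    rw [commPair_cls]
    show e (Multiplicative.ofAdd ((1 : ZMod p) * 1)) / e (Multiplicative.ofAdd ((0 : ZMod p) * 0))
      = u
    simp only [mul_one, mul_zero, ofAdd_zero, map_one, div_one]
    exact monoidHomOfForallMemZpowers_apply_gen _ _
  have hrange : (commPair (A := kˣ) (gen_comm (p := p))).range = Subgroup.zpowers u := by
    refine le_antisymm ?_ ((Subgroup.zpowers_le).2 ⟨_, hc⟩)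
    rintro _ ⟨z, rfl⟩
    rw [hu.zpowers_eq, mem_rootsOfUnity]
    refine commPair_pow _ (Prod.ext ?_ (one_pow p)) z
    exact orderOf_dvd_iff_pow_eq_one.1 (dvd_of_eq
      ((orderOf_ofAdd_eq_addOrderOf (1 : ZMod p)).trans (ZMod.addOrderOf_one p)))
  rw [Nat.card_congr (MonoidHom.ofInjective commPair_injective).toEquiv, hrange,
    Nat.card_zpowers, ← hu.eq_orderOf]

end FA.SchurCover

end
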