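import Fermat.Agent.SchurCover.Multiplier
import Mathlib.GroupTheory.FiniteAbelian.Duality
import Mathlib.GroupTheory.Abelianization.Defs
import Mathlib.RingTheory.RootsOfUnity.AlgebraicallyClosed
import Mathlib.LinearAlgebra.Matrix.GeneralLinearGroup.Projective

/-!
# Schur covers

The extension by the dual of the multiplier defined by a homomorphic choice of cocycles: its
kernel lies in the commutator subgroup, and every projective representation lifts to it.
-/

set_option autoImplicit false
set_option linter.style.haveILetI false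

noncomputable section

open Matrix
open scoped MatrixGroups

namespace FA.SchurCover

variable (G : Type*) [Group G] [Finite G] (k : Type*) [Field k] [IsAlgClosed k] [CharZero k]

/-- The homomorphic choice of cocycles. -/
def sigma : H2 G kˣ →* cocycles G kˣ := (exists_section (G := G) (k := k)).choose

omit [CharZero k] in
theorem cls_sigma (x : H2 G kˣ) : cls G kˣ (sigma G k x) = x :=
  (exists_section (G := G) (k := k)).choose_spec x

/-- The evaluations of the chosen cocycles, as a cocycle in the dual of the multiplier. -/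
def tautCocycle : cocycles G (H2 G kˣ →* kˣ) :=
  ⟨fun x => MonoidHom.mk' (fun m => (sigma G k m).1 x) fun a b => by
      rw [map_mul, Subgroup.coe_mul, Pi.mul_apply],
    fun g h j => MonoidHom.ext fun m => (sigma G k m).2 g h j⟩

omit [CharZero k] in
theorem tautCocycle_apply (g h : G) (m : H2 G kˣ) :
    (tautCocycle G k).1 (g, h) m = (sigma G k m).1 (g, h) := rfl

/-- **The Schur cover.** -/
abbrev Cover := CExt (tautCocycle G k)

theorem card_dual : Nat.card (H2 G kˣ →* kˣ) = Nat.card (H2 G kˣ) :=
  CommGroup.card_monoidHom_of_hasEnoughRootsOfUnity (H2 G kˣ) k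

theorem finite_cover : Finite (Cover G k) := inferInstance

/-- The kernel is a copy of the multiplier. -/
theorem nonempty_ker_equiv : Nonempty ((CExt.proj (tautCocycle G k)).ker ≃* H2 G kˣ) :=
  ⟨((MulEquiv.subgroupCongr CExt.ker_proj).trans
      (MonoidHom.ofInjective CExt.incl_injective).symm).trans
    (CommGroup.monoidHom_mulEquiv_of_hasEnoughRootsOfUnity (H2 G kˣ) k).some⟩

theorem card_ker_cover :
    Nat.card (CExt.proj (tautCocycle G k)).ker = Nat.card (H2 G kˣ) :=
  Nat.card_congr (nonempty_ker_equiv G k).some.toEquiv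

/-- **The kernel lies in the commutator subgroup.** -/
theorem ker_le_commutator : (CExt.proj (tautCocycle G k)).ker ≤ commutator (Cover G k) := by
  rw [CExt.ker_proj]
  rintro _ ⟨d, rfl⟩
  by_contra hd
  haveI : Finite (Abelianization (Cover G k)) :=
    Finite.of_surjective (Abelianization.of (G := Cover G k)) (QuotientGroup.mk'_surjective _)
  obtain ⟨ψ, hψ⟩ := CommGroup.exists_apply_ne_one_of_hasEnoughRootsOfUnity
    (Abelianization (Cover G k)) k (a := Abelianization.of (CExt.incl _ d)) fun h =>
      hd (Abelianization.ker_of (Cover G k) ▸ MonoidHom.mem_ker.2 h)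
  refine hψ ?_
  set χ := ψ.comp (Abelianization.of.comp (CExt.incl (tautCocycle G k)))
  set m := CommGroup.monoidHomMonoidHomEquiv (H2 G kˣ) k χ
  have hev : ∀ φ, φ m = χ φ := fun φ => CommGroup.apply_monoidHomMonoidHomEquiv k φ χ
  have hm : m = 1 := by
    rw [← cls_sigma G k m]
    refine cls_eq_one_of (fun g => ψ (Abelianization.of (CExt.sec _ g))) fun g h => ?_
    rw [← map_mul, ← map_mul, CExt.sec_mul_sec, map_mul, map_mul, ← tautCocycle_apply, hev]
    rfl
  show χ d = 1
  rw [← hev, hm, map_one]

variable {G k}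

/-- Scalars are central. -/
theorem scalar_mem_center {n : Type*} [Fintype n] [DecidableEq n] {R : Type*} [CommRing R]
    (u : Rˣ) : GeneralLinearGroup.scalar n u ∈ Subgroup.center (GL n R) := by
  rw [GeneralLinearGroup.center_eq_range_scalar]
  exact ⟨u, rfl⟩

theorem scalar_comm' {n : Type*} [Fintype n] [DecidableEq n] {R : Type*} [CommRing R]
    (u : Rˣ) (X : GL n R) :
    X * GeneralLinearGroup.scalar n u = GeneralLinearGroup.scalar n u * X :=
  Subgroup.mem_center_iff.1 (scalar_mem_center u) X

theorem scalar_mul_mul {n : Type*} [Fintype n] [DecidableEq n] {R : Type*} [CommRing R]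
    (u v : Rˣ) (X Y : GL n R) : GeneralLinearGroup.scalar n (u * v) * (X * Y) =
      GeneralLinearGroup.scalar n u * X * (GeneralLinearGroup.scalar n v * Y) := by
  rw [map_mul]
  simp only [mul_assoc]
  rw [← mul_assoc X, scalar_comm' v X, mul_assoc]

/-- Two matrices that agree in `PGL` differ by a scalar. -/
theorem exists_scalar_mul {n : Type*} [Fintype n] [DecidableEq n] {R : Type*} [CommRing R]
    {A B : GL n R} (h : ProjGenLinGroup.mk A = ProjGenLinGroup.mk B) :
    ∃ u, A = GeneralLinearGroup.scalar n u * B := by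
  obtain ⟨u, hu⟩ := ProjGenLinGroup.mk_eq_mk_iff.1 h.symm
  exact ⟨u, by rw [← scalar_comm', hu]⟩

theorem scalar_inj_units {n : Type*} [Fintype n] [DecidableEq n] [Nonempty n] {R : Type*}
    [CommRing R] {u v : Rˣ}
    (h : GeneralLinearGroup.scalar n u = GeneralLinearGroup.scalar n v) : u = v := by
  have h1 := congrArg Units.val h
  rw [GeneralLinearGroup.coe_scalar, GeneralLinearGroup.coe_scalar] at h1
  exact Units.ext (Matrix.scalar_inj.1 h1)

variable {n : Type*} [Fintype n] [DecidableEq n]

omit [Finite G] [IsAlgClosed k] [CharZero k] in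
/-- The cocycle of a projective representation. -/
theorem exists_rep_cocycle [Nonempty n] (ρ : G →* ProjGenLinGroup n k) :
    ∃ (A : G → GL n k) (c : cocycles G kˣ), (∀ g, ProjGenLinGroup.mk (A g) = ρ g) ∧
      ∀ g h, A g * A h = GeneralLinearGroup.scalar n (c.1 (g, h)) * A (g * h) := by
  have hsurj : ∀ g, ∃ A : GL n k, ProjGenLinGroup.mk A = ρ g := fun g => by
    induction ρ g using Matrix.ProjGenLinGroup.induction_on with | mk A => exact ⟨A, rfl⟩
  choose A hA using hsurj
  choose u hu using fun g h => exists_scalar_mul (A := A g * A h) (B := A (g * h))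
    (by rw [map_mul, hA, hA, hA, map_mul])
  have hc : ∀ (w : kˣ) (X : GL n k),
      X * GeneralLinearGroup.scalar n w = GeneralLinearGroup.scalar n w * X := scalar_comm'
  refine ⟨A, ⟨fun x => u x.1 x.2, fun g h j => scalar_inj_units (n := n) ?_⟩, hA, hu⟩
  simp only [map_mul]
  apply mul_right_cancel (b := A (g * h * j))
  calc _ = GeneralLinearGroup.scalar n (u g h) * (GeneralLinearGroup.scalar n (u (g * h) j) *
          A (g * h * j)) := by rw [← hc (u (g * h) j), mul_assoc]
    _ = A g * A h * A j := by rw [← hu, ← mul_assoc, ← hu]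
    _ = GeneralLinearGroup.scalar n (u h j) * (A g * A (h * j)) := by
        rw [mul_assoc, hu h j, ← mul_assoc, hc, mul_assoc]
    _ = _ := by rw [hu, mul_assoc g h j, mul_assoc]

omit [Finite G] [IsAlgClosed k] [CharZero k] in
/-- A projective representation lifts to `G` iff its cocycle is a coboundary. -/
theorem lifts_iff [Nonempty n] {ρ : G →* ProjGenLinGroup n k} {A : G → GL n k}
    {c : cocycles G kˣ} (hA : ∀ g, ProjGenLinGroup.mk (A g) = ρ g)
    (hc : ∀ g h, A g * A h = GeneralLinearGroup.scalar n (c.1 (g, h)) * A (g * h)) :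
    (∃ R : G →* GL n k, ∀ g, ProjGenLinGroup.mk (R g) = ρ g) ↔ cls G kˣ c = 1 := by
  constructor
  · rintro ⟨R, hR⟩
    choose f hf using fun g => exists_scalar_mul ((hA g).trans (hR g).symm)
    refine cls_eq_one_of f fun g h =>
      scalar_inj_units (n := n) (mul_right_cancel (b := R (g * h)) ?_)
    calc GeneralLinearGroup.scalar n (c.1 (g, h) * f (g * h)) * R (g * h)
        = GeneralLinearGroup.scalar n (c.1 (g, h)) * A (g * h) := by
          rw [map_mul, mul_assoc, ← hf]
      _ = A g * A h := (hc g h).symm
      _ = _ := by rw [hf g, hf h, ← scalar_mul_mul, map_mul R]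
  · intro h
    obtain ⟨f, hf⟩ := cls_eq_one.1 h
    refine ⟨MonoidHom.mk' (fun g => (GeneralLinearGroup.scalar n (f g))⁻¹ * A g) fun g h => ?_,
      fun g => ?_⟩
    · have he : c.1 (g, h) = f g * f h / f (g * h) := by rw [← hf, cobound_apply]
      rw [← map_inv, ← map_inv, ← map_inv]
      calc GeneralLinearGroup.scalar n (f (g * h))⁻¹ * A (g * h)
          = GeneralLinearGroup.scalar n ((f g)⁻¹ * (f h)⁻¹ * c.1 (g, h)) * A (g * h) := by
            congr 2
            rw [he, div_eq_mul_inv, ← mul_inv, inv_mul_cancel_left]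
        _ = GeneralLinearGroup.scalar n ((f g)⁻¹ * (f h)⁻¹) * (A g * A h) := by
            rw [hc, map_mul _ _ (c.1 (g, h)), mul_assoc]
        _ = _ := scalar_mul_mul _ _ _ _
    · show ProjGenLinGroup.mk _ = _
      rw [MonoidHom.mk'_apply, map_mul, map_inv, ProjGenLinGroup.mk_eq_one.2
        (scalar_mem_center _), inv_one, one_mul, hA]

omit [CharZero k] in
/-- **Every projective representation lifts to the cover.** -/
theorem exists_lift (ρ : G →* ProjGenLinGroup n k) :
    ∃ R : Cover G k →* GL n k, ∀ x, ProjGenLinGroup.mk (R x) = ρ (CExt.proj _ x) := by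
  rcases isEmpty_or_nonempty n with hn | hn
  · refine ⟨1, fun x => ?_⟩
    induction ρ (CExt.proj _ x) using Matrix.ProjGenLinGroup.induction_on with | mk A => ?_
    rw [MonoidHom.one_apply, show A = 1 from Units.ext (Subsingleton.elim _ _)]
  obtain ⟨A, c, hA, hc⟩ := exists_rep_cocycle ρ
  set m := cls G kˣ c
  obtain ⟨f, hf⟩ := cls_eq.1 (cls_sigma G k m).symm
  refine ⟨MonoidHom.mk'
    (fun x => GeneralLinearGroup.scalar n (x.val m * f x.base) * A x.base) fun x y => ?_,
    fun x => ?_⟩
  · rw [CExt.mul_base, CExt.mul_val]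
    have he : (sigma G k m).1 (x.base, y.base) * f (x.base * y.base) =
        c.1 (x.base, y.base) * (f x.base * f y.base) := by
      rw [← hf, Subgroup.coe_mul, Pi.mul_apply, cobound_apply, mul_assoc, div_mul_cancel]
    rw [MonoidHom.mul_apply, MonoidHom.mul_apply, tautCocycle_apply, mul_assoc _ _ (f _), he]
    calc GeneralLinearGroup.scalar n
          (x.val m * y.val m * (c.1 (x.base, y.base) * (f x.base * f y.base))) *
          A (x.base * y.base)
        = GeneralLinearGroup.scalar n (x.val m * f x.base * (y.val m * f y.base)) *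
            (A x.base * A y.base) := by
          rw [hc, ← mul_assoc (GeneralLinearGroup.scalar n _), ← map_mul]
          congr 2
          ac_rfl
      _ = _ := scalar_mul_mul _ _ _ _
  · show ProjGenLinGroup.mk _ = _
    rw [MonoidHom.mk'_apply, map_mul, ProjGenLinGroup.mk_eq_one.2
      (scalar_mem_center _), one_mul, hA]
    rfl

omit [CharZero k] in
/-- **With cyclic Sylow subgroups every projective representation lifts.** -/
theorem exists_lift_of_cyclic_sylows [Nonempty n]
    (h : ∀ (p : ℕ) [Fact p.Prime] (P : Sylow p G), IsCyclic (P : Subgroup G))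
    (ρ : G →* ProjGenLinGroup n k) :
    ∃ R : G →* GL n k, ∀ g, ProjGenLinGroup.mk (R g) = ρ g := by
  obtain ⟨A, c, hA, hc⟩ := exists_rep_cocycle ρ
  exact (lifts_iff hA hc).2 (eq_one_of_cyclic_sylows h _)

end FA.SchurCover

end
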