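import Mathlib.Algebra.Group.MinimalAxioms
import Mathlib.GroupTheory.QuotientGroup.Basic
import Mathlib.GroupTheory.Subgroup.Center
import Mathlib.GroupTheory.Finiteness
import Mathlib.Data.Fintype.Prod
import Mathlib.Tactic.Group

/-!
# Two-cocycles with trivial action and their central extensions

`H² = cocycles / coboundaries` for a group `G` acting trivially on a commutative group `A`, the
central extension of a cocycle and the cocycle of a section of a central extension.
-/

set_option autoImplicit false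

noncomputable section

namespace FA.SchurCover

variable {G A B : Type*} [Group G] [CommGroup A] [CommGroup B]

variable (G A) in
/-- The two-cocycles of `G` in `A` with trivial action. -/
def cocycles : Subgroup (G × G → A) where
  carrier := {c | ∀ g h j, c (g * h, j) * c (g, h) = c (h, j) * c (g, h * j)}
  one_mem' g h j := rfl
  mul_mem' {c d} hc hd g h j := by
    simp only [Pi.mul_apply]
    rw [mul_mul_mul_comm, hc g h j, hd g h j, mul_mul_mul_comm]
  inv_mem' {c} hc g h j := by
    simp only [Pi.inv_apply]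
    rw [← mul_inv, hc g h j, mul_inv]

theorem mem_cocycles {c : G × G → A} :
    c ∈ cocycles G A ↔ ∀ g h j, c (g * h, j) * c (g, h) = c (h, j) * c (g, h * j) := Iff.rfl

variable (G A) in
/-- The coboundary of a function. -/
def cobound : (G → A) →* cocycles G A where
  toFun f := ⟨fun x => f x.1 * f x.2 / f (x.1 * x.2), fun g h j => by
    simp only [div_eq_mul_inv, mul_assoc g h j]
    have key : ∀ a b c x y z : A,
        x * c * y * (a * b * x⁻¹) = b * c * z⁻¹ * (a * z * y) := fun a b c x y z => by
      calc x * c * y * (a * b * x⁻¹) = x * x⁻¹ * (a * b * c * y) := by ac_rfl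
        _ = z⁻¹ * z * (a * b * c * y) := by rw [mul_inv_cancel, inv_mul_cancel]
        _ = b * c * z⁻¹ * (a * z * y) := by ac_rfl
    exact key _ _ _ _ _ _⟩
  map_one' := Subtype.ext (funext fun x => by simp)
  map_mul' f f' := Subtype.ext (funext fun x => by
    simp only [Subgroup.coe_mul, Pi.mul_apply]
    rw [← mul_div_mul_comm, mul_mul_mul_comm])

theorem cobound_apply (f : G → A) (g h : G) :
    (cobound G A f).1 (g, h) = f g * f h / f (g * h) := rfl

variable (G A) in
/-- The second cohomology group with trivial action. -/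
def H2 := cocycles G A ⧸ (cobound G A).range

instance : CommGroup (H2 G A) := QuotientGroup.Quotient.commGroup _

variable (G A) in
/-- The class of a cocycle. -/
def cls : cocycles G A →* H2 G A := QuotientGroup.mk' (cobound G A).range

theorem cls_surjective : Function.Surjective (cls G A) := QuotientGroup.mk'_surjective _

theorem cls_eq_one {c : cocycles G A} : cls G A c = 1 ↔ ∃ f, cobound G A f = c :=
  QuotientGroup.eq_one_iff c

theorem cls_eq {c d : cocycles G A} : cls G A c = cls G A d ↔ ∃ f, c * cobound G A f = d := by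
  refine Iff.trans (QuotientGroup.eq (s := (cobound G A).range) (a := c) (b := d)) ?_
  exact ⟨fun ⟨f, hf⟩ => ⟨f, by rw [hf, mul_inv_cancel_left]⟩,
    fun ⟨f, hf⟩ => ⟨f, by rw [← hf, inv_mul_cancel_left]⟩⟩

/-- A coboundary criterion. -/
theorem cls_eq_one_of {c : cocycles G A} (f : G → A)
    (h : ∀ g k, c.1 (g, k) * f (g * k) = f g * f k) : cls G A c = 1 :=
  cls_eq_one.2 ⟨f, Subtype.ext (funext fun x => by
    rw [show x = (x.1, x.2) from rfl, cobound_apply, div_eq_iff_eq_mul, h])⟩

variable (G) in
/-- Change of coefficients. -/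
def pushCoeff (φ : A →* B) : cocycles G A →* cocycles G B where
  toFun c := ⟨fun x => φ (c.1 x), fun g h j => by rw [← map_mul, ← map_mul, c.2 g h j]⟩
  map_one' := Subtype.ext (funext fun _ => map_one φ)
  map_mul' c d := Subtype.ext (funext fun x => map_mul φ (c.1 x) (d.1 x))

theorem pushCoeff_apply (φ : A →* B) (c : cocycles G A) (g h : G) :
    (pushCoeff G φ c).1 (g, h) = φ (c.1 (g, h)) := rfl

theorem cocycle_one_left (c : cocycles G A) (g : G) : c.1 (1, g) = c.1 (1, 1) := by
  have := c.2 1 1 g
  rw [one_mul, one_mul] at this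
  exact (mul_left_cancel this).symm

theorem cocycle_one_right (c : cocycles G A) (g : G) : c.1 (g, 1) = c.1 (1, 1) := by
  have := c.2 g 1 1
  rw [mul_one, mul_one] at this
  exact mul_right_cancel this

/-- The central extension of a cocycle. -/
@[ext]
structure CExt (c : cocycles G A) where
  /-- The coordinate in the kernel. -/
  val : A
  /-- The image in the quotient. -/
  base : G

namespace CExt

variable {c : cocycles G A}

instance : Mul (CExt c) := ⟨fun x y => ⟨x.val * y.val * c.1 (x.base, y.base), x.base * y.base⟩⟩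

instance : One (CExt c) := ⟨⟨(c.1 (1, 1))⁻¹, 1⟩⟩

instance : Inv (CExt c) :=
  ⟨fun x => ⟨x.val⁻¹ * (c.1 (x.base⁻¹, x.base))⁻¹ * (c.1 (1, 1))⁻¹, x.base⁻¹⟩⟩

@[simp] theorem mul_val (x y : CExt c) :
    (x * y).val = x.val * y.val * c.1 (x.base, y.base) := rfl

@[simp] theorem mul_base (x y : CExt c) : (x * y).base = x.base * y.base := rfl

@[simp] theorem one_val : (1 : CExt c).val = (c.1 (1, 1))⁻¹ := rfl

@[simp] theorem one_base : (1 : CExt c).base = 1 := rfl

@[simp] theorem inv_val (x : CExt c) :
    x⁻¹.val = x.val⁻¹ * (c.1 (x.base⁻¹, x.base))⁻¹ * (c.1 (1, 1))⁻¹ := rfl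

@[simp] theorem inv_base (x : CExt c) : x⁻¹.base = x.base⁻¹ := rfl

instance : Group (CExt c) :=
  Group.ofLeftAxioms
    (fun x y z => CExt.ext (by
      simp only [mul_val, mul_base]
      calc x.val * y.val * c.1 (x.base, y.base) * z.val * c.1 (x.base * y.base, z.base)
          = x.val * y.val * z.val * (c.1 (x.base * y.base, z.base) * c.1 (x.base, y.base)) := by
            ac_rfl
        _ = x.val * (y.val * z.val * c.1 (y.base, z.base)) * c.1 (x.base, y.base * z.base) := by
            rw [c.2]; ac_rfl) (mul_assoc _ _ _))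
    (fun x => CExt.ext (by
      simp only [mul_val, one_val, one_base, cocycle_one_left c x.base]
      rw [mul_comm (c.1 (1, 1))⁻¹, inv_mul_cancel_right]) (one_mul _))
    (fun x => CExt.ext (by
      simp only [mul_val, inv_val, inv_base, one_val]
      calc x.val⁻¹ * (c.1 (x.base⁻¹, x.base))⁻¹ * (c.1 (1, 1))⁻¹ * x.val *
            c.1 (x.base⁻¹, x.base)
          = (x.val⁻¹ * x.val) * ((c.1 (x.base⁻¹, x.base))⁻¹ * c.1 (x.base⁻¹, x.base)) *
              (c.1 (1, 1))⁻¹ := by ac_rfl
        _ = (c.1 (1, 1))⁻¹ := by simp) (inv_mul_cancel _))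

instance [Finite G] [Finite A] : Finite (CExt c) :=
  Finite.of_equiv (A × G) ⟨fun x => ⟨x.1, x.2⟩, fun x => (x.val, x.base), fun _ => rfl,
    fun _ => rfl⟩

variable (c) in
/-- The projection. -/
def proj : CExt c →* G where
  toFun := base
  map_one' := rfl
  map_mul' _ _ := rfl

variable (c) in
/-- The inclusion of the kernel. -/
def incl : A →* CExt c where
  toFun a := ⟨a * (c.1 (1, 1))⁻¹, 1⟩
  map_one' := CExt.ext (one_mul _) rfl
  map_mul' a b := CExt.ext (by
    show a * b * (c.1 (1, 1))⁻¹ = a * (c.1 (1, 1))⁻¹ * (b * (c.1 (1, 1))⁻¹) * c.1 (1, 1)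
    calc a * b * (c.1 (1, 1))⁻¹ = a * b * (c.1 (1, 1))⁻¹ * ((c.1 (1, 1))⁻¹ * c.1 (1, 1)) := by
          rw [inv_mul_cancel, mul_one]
      _ = a * (c.1 (1, 1))⁻¹ * (b * (c.1 (1, 1))⁻¹) * c.1 (1, 1) := by ac_rfl) (mul_one 1).symm

variable (c) in
/-- The standard section. -/
def sec (g : G) : CExt c := ⟨1, g⟩

@[simp] theorem proj_apply (x : CExt c) : proj c x = x.base := rfl

theorem proj_sec (g : G) : proj c (sec c g) = g := rfl

theorem proj_surjective : Function.Surjective (proj c) := fun g => ⟨sec c g, rfl⟩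

theorem incl_mul (a : A) (x : CExt c) : incl c a * x = ⟨a * x.val, x.base⟩ :=
  CExt.ext (by
    simp only [mul_val, incl, MonoidHom.coe_mk, OneHom.coe_mk, cocycle_one_left c x.base]
    calc a * (c.1 (1, 1))⁻¹ * x.val * c.1 (1, 1) = a * x.val * ((c.1 (1, 1))⁻¹ * c.1 (1, 1)) := by
          ac_rfl
      _ = a * x.val := by simp) (one_mul _)

theorem mul_incl (a : A) (x : CExt c) : x * incl c a = ⟨a * x.val, x.base⟩ :=
  CExt.ext (by
    simp only [mul_val, incl, MonoidHom.coe_mk, OneHom.coe_mk, cocycle_one_right c x.base]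
    calc x.val * (a * (c.1 (1, 1))⁻¹) * c.1 (1, 1) = a * x.val * ((c.1 (1, 1))⁻¹ * c.1 (1, 1)) := by
          ac_rfl
      _ = a * x.val := by simp) (mul_one _)

theorem incl_mem_center (a : A) : incl c a ∈ Subgroup.center (CExt c) :=
  Subgroup.mem_center_iff.2 fun x => by rw [incl_mul, mul_incl]

theorem incl_injective : Function.Injective (incl c) := fun _ _ h =>
  mul_right_cancel (congrArg CExt.val h)

theorem eq_incl_mul_sec (x : CExt c) : x = incl c x.val * sec c x.base := by
  rw [incl_mul]
  simp [sec]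

theorem sec_mul_sec (g h : G) : sec c g * sec c h = incl c (c.1 (g, h)) * sec c (g * h) := by
  rw [incl_mul]
  exact CExt.ext (by simp [sec]) rfl

theorem ker_proj : (proj c).ker = (incl c).range := by
  ext x
  refine ⟨fun h => ⟨x.val * c.1 (1, 1), CExt.ext ?_ (MonoidHom.mem_ker.1 h).symm⟩, ?_⟩
  · simp [incl]
  · rintro ⟨a, rfl⟩
    rfl

theorem ker_proj_le_center : (proj c).ker ≤ Subgroup.center (CExt c) := by
  rw [ker_proj]
  rintro _ ⟨a, rfl⟩
  exact incl_mem_center a

/-- A splitting homomorphism makes the cocycle a coboundary. -/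
theorem cls_eq_one_of_hom (φ : G →* CExt c) (hφ : ∀ g, (φ g).base = g) : cls G A c = 1 := by
  refine cls_eq_one_of (fun g => ((φ g).val)⁻¹) fun g k => ?_
  have h := congrArg CExt.val (map_mul φ g k)
  rw [mul_val, hφ, hφ] at h
  rw [h, mul_inv, mul_inv]
  calc c.1 (g, k) * ((φ g).val⁻¹ * (φ k).val⁻¹ * (c.1 (g, k))⁻¹)
      = (c.1 (g, k) * (c.1 (g, k))⁻¹) * ((φ g).val⁻¹ * (φ k).val⁻¹) := by ac_rfl
    _ = _ := by rw [mul_inv_cancel, one_mul]

end CExt

section Section

variable {E : Type*} [Group E] (π : E →* G) (hz : π.ker ≤ Subgroup.center E)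
  (s : G → E) (hs : ∀ g, π (s g) = g)

include hz hs

omit hz in
theorem secCocycle_mem (g h : G) : s g * s h * (s (g * h))⁻¹ ∈ π.ker := by
  simp [MonoidHom.mem_ker, hs, mul_assoc]

/-- The cocycle of a section of a central extension, read through a character of the kernel. -/
def secCocycle (χ : π.ker →* A) : cocycles G A :=
  ⟨fun x => χ ⟨_, secCocycle_mem π s hs x.1 x.2⟩, fun g h j => by
    rw [← map_mul, ← map_mul]
    refine congrArg χ (Subtype.ext ?_)
    have key : ∀ g h : G, ∀ x : E,
        x * (s g * s h * (s (g * h))⁻¹) = s g * s h * (s (g * h))⁻¹ * x :=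
      fun g h x => Subgroup.mem_center_iff.1 (hz (secCocycle_mem π s hs g h)) x
    simp only [Subgroup.coe_mul]
    calc s (g * h) * s j * (s (g * h * j))⁻¹ * (s g * s h * (s (g * h))⁻¹)
        = s g * s h * (s (g * h))⁻¹ * (s (g * h) * s j * (s (g * h * j))⁻¹) := key g h _
      _ = s g * (s h * s j * (s (h * j))⁻¹) * (s (h * j) * (s (g * (h * j)))⁻¹) := by
          rw [mul_assoc g h j]; group
      _ = s h * s j * (s (h * j))⁻¹ * (s g * s (h * j) * (s (g * (h * j)))⁻¹) := by
          rw [key h j (s g)]; group⟩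

theorem secCocycle_apply (χ : π.ker →* A) (g h : G) :
    (secCocycle π hz s hs χ).1 (g, h) = χ ⟨_, secCocycle_mem π s hs g h⟩ := rfl

end Section

end FA.SchurCover

end
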