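import Fermat.Agent.SchurCover.Extension
import Mathlib.GroupTheory.Transfer
import Mathlib.GroupTheory.Sylow
import Mathlib.GroupTheory.FiniteAbelian.Basic
import Mathlib.RingTheory.RootsOfUnity.Basic
import Mathlib.FieldTheory.IsAlgClosed.Basic

/-!
# The Schur multiplier of a finite group

With coefficients in the units of an algebraically closed field, `H²` is finite and killed by
the order of the group; the index of a subgroup kills the classes vanishing on it, so the multiplier is trivial when every Sylow subgroup is cyclic. It is also the image of a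
homomorphic choice of cocycles.
-/

set_option autoImplicit false
set_option linter.style.haveILetI false

noncomputable section

namespace FA.SchurCover

variable {G A : Type*} [Group G] [CommGroup A] {k : Type*} [Field k] [IsAlgClosed k]

/-- The units of an algebraically closed field are divisible. -/
theorem exists_pow_units {n : ℕ} (hn : n ≠ 0) (x : kˣ) : ∃ y : kˣ, y ^ n = x := by
  obtain ⟨y, hy⟩ := IsAlgClosed.exists_pow_nat_eq (x : k) (Nat.pos_of_ne_zero hn)
  have hy0 : y ≠ 0 := fun h => x.ne_zero (by rw [← hy, h, zero_pow hn])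
  exact ⟨Units.mk0 y hy0, Units.ext (by simpa using hy)⟩

/-- The order of the group kills `H²`. -/
theorem h2_pow_card [Finite G] (x : H2 G A) : x ^ Nat.card G = 1 := by
  haveI := Fintype.ofFinite G
  obtain ⟨c, rfl⟩ := cls_surjective x
  rw [← map_pow]
  refine cls_eq_one_of (fun g => ∏ j, c.1 (g, j)) fun g h => ?_
  have hre : ∏ j, c.1 (g, h * j) = ∏ j, c.1 (g, j) :=
    Fintype.prod_equiv (Equiv.mulLeft h) _ _ fun j => rfl
  have key : (∏ j, c.1 (g * h, j)) * c.1 (g, h) ^ Nat.card G =
      (∏ j, c.1 (h, j)) * ∏ j, c.1 (g, j) := by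
    rw [← hre, ← Finset.prod_mul_distrib, Nat.card_eq_fintype_card, ← Finset.card_univ,
      ← Finset.prod_const, ← Finset.prod_mul_distrib]
    exact Finset.prod_congr rfl fun j _ => c.2 g h j
  rw [SubmonoidClass.coe_pow, Pi.pow_apply, mul_comm, key, mul_comm]

/-- A class killed by `n` has a cocycle killed by `n`. -/
theorem exists_rep_pow {n : ℕ} (hn : n ≠ 0) {x : H2 G kˣ} (hx : x ^ n = 1) :
    ∃ c : cocycles G kˣ, cls G kˣ c = x ∧ c ^ n = 1 := by
  obtain ⟨c, rfl⟩ := cls_surjective x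
  rw [← map_pow] at hx
  obtain ⟨F, hF⟩ := cls_eq_one.1 hx
  choose r hr using fun g => exists_pow_units hn (F g)⁻¹
  refine ⟨c * cobound G kˣ r, by
    rw [map_mul, cls_eq_one.2 ⟨r, rfl⟩]
    exact mul_one (cls G kˣ c), ?_⟩
  rw [mul_pow, ← map_pow, show r ^ n = F⁻¹ from funext hr, map_inv, hF, mul_inv_cancel]

/-- **The Schur multiplier is finite.** -/
instance finite_H2 [Finite G] : Finite (H2 G kˣ) := by
  haveI : NeZero (Nat.card G) := ⟨Nat.card_pos.ne'⟩
  haveI : Finite (rootsOfUnity (Nat.card G) k) := inferInstance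
  let S := {c : cocycles G kˣ // c ^ Nat.card G = 1}
  haveI : Finite S :=
    Finite.of_injective (fun c : S => fun x : G × G =>
      (⟨c.1.1 x, (mem_rootsOfUnity _ _).2 (congrFun (congrArg Subtype.val c.2) x)⟩ :
        rootsOfUnity (Nat.card G) k))
      fun a b h => Subtype.ext (Subtype.ext (funext fun x => congrArg Subtype.val (congrFun h x)))
  refine Finite.of_surjective (fun c : S => cls G kˣ c.1) fun x => ?_
  obtain ⟨c, hc, hc'⟩ := exists_rep_pow Nat.card_pos.ne' (h2_pow_card x)
  exact ⟨⟨c, hc'⟩, hc⟩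

omit [IsAlgClosed k]

variable (A) in
/-- Restriction of cocycles. -/
def resCocycle (H : Subgroup G) : cocycles G A →* cocycles H A where
  toFun c := ⟨fun x => c.1 (x.1, x.2), fun g h j => by simpa using c.2 g h j⟩
  map_one' := rfl
  map_mul' _ _ := rfl

variable (A) in
/-- Restriction of classes. -/
def resH2 (H : Subgroup G) : H2 G A →* H2 H A :=
  QuotientGroup.map _ _ (resCocycle A H) (by
    rintro _ ⟨f, rfl⟩
    exact ⟨fun h => f h, rfl⟩)

/-- **The index kills the classes vanishing on a subgroup.** -/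
theorem pow_index_eq_one (H : Subgroup G) [H.FiniteIndex] {x : H2 G A} (hx : resH2 A H x = 1) :
    x ^ H.index = 1 := by
  obtain ⟨c, rfl⟩ := cls_surjective x
  obtain ⟨f, hf⟩ := (cls_eq_one (c := resCocycle A H c)).1 hx
  have hc : ∀ g h : H, c.1 (g, h) = f g * f h / f (g * h) := fun g h =>
    (congrFun (congrArg Subtype.val hf) (g, h)).symm
  have hc1 : c.1 (1, 1) = f 1 := by simpa using hc 1 1
  set S := H.comap (CExt.proj c)
  have hindex : S.index = H.index := H.index_comap_of_surjective CExt.proj_surjective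
  haveI : S.FiniteIndex := ⟨by rw [hindex]; exact Subgroup.FiniteIndex.index_ne_zero⟩
  let φ : S →* A := MonoidHom.mk' (fun e => e.1.val * f ⟨e.1.base, e.2⟩) fun u v => by
    show u.1.val * v.1.val * c.1 (u.1.base, v.1.base) * f _ = _
    have huv : c.1 (u.1.base, v.1.base) =
        f ⟨u.1.base, u.2⟩ * f ⟨v.1.base, v.2⟩ / f ⟨(u * v).1.base, (u * v).2⟩ :=
      hc ⟨u.1.base, u.2⟩ ⟨v.1.base, v.2⟩
    rw [huv, mul_assoc, div_mul_cancel]
    ac_rfl
  set τ := MonoidHom.transfer φ
  have hτ : ∀ a, τ (CExt.incl c a) = a ^ H.index := fun a => by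
    rw [show τ = MonoidHom.transfer φ from rfl, MonoidHom.transfer_eq_pow φ _ fun j g _ => by
      rw [← map_pow, mul_assoc, ← Subgroup.mem_center_iff.1 (CExt.incl_mem_center (a ^ j)) g,
        inv_mul_cancel_left]]
    show ((CExt.incl c a) ^ S.index).val * f ⟨_, _⟩ = _
    simp only [← map_pow, hindex]
    show a ^ H.index * (c.1 (1, 1))⁻¹ * f 1 = _
    rw [hc1, inv_mul_cancel_right]
  rw [← map_pow]
  refine cls_eq_one_of (fun g => τ (CExt.sec c g)) fun g h => ?_
  rw [← map_mul, CExt.sec_mul_sec, map_mul, hτ, SubmonoidClass.coe_pow, Pi.pow_apply]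

/-- Restriction to a Sylow subgroup is injective on the `p`-part. -/
theorem eq_one_of_res_sylow [Finite G] {p : ℕ} [hp : Fact p.Prime] (P : Sylow p G) {x : H2 G A}
    {j : ℕ} (hj : x ^ p ^ j = 1) (hx : resH2 A P x = 1) : x = 1 := by
  have h := pow_index_eq_one (P : Subgroup G) hx
  have hcop : (p ^ j).Coprime (P : Subgroup G).index :=
    Nat.Coprime.pow_left _ ((hp.out.coprime_iff_not_dvd).2 P.not_dvd_index)
  exact orderOf_eq_one_iff.1 (Nat.eq_one_of_dvd_coprimes hcop (orderOf_dvd_of_pow_eq_one hj)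
    (orderOf_dvd_of_pow_eq_one h))

variable [IsAlgClosed k]

/-- **Cyclic groups have trivial multiplier.** -/
theorem eq_one_of_isCyclic [Finite G] [IsCyclic G] (x : H2 G kˣ) : x = 1 := by
  obtain ⟨c, rfl⟩ := cls_surjective x
  obtain ⟨g, hg⟩ := IsCyclic.exists_generator (α := G)
  have hN : orderOf g ≠ 0 := (orderOf_pos g).ne'
  obtain ⟨a, ha⟩ : CExt.sec c g ^ orderOf g ∈ (CExt.incl c).range := by
    rw [← CExt.ker_proj, MonoidHom.mem_ker, map_pow, CExt.proj_sec, pow_orderOf_eq_one]
  obtain ⟨b, hb⟩ := exists_pow_units hN a⁻¹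
  set y := CExt.incl c b * CExt.sec c g
  have hy : y ^ orderOf g = 1 := by
    rw [(show Commute (CExt.incl c b) (CExt.sec c g) from
      (Subgroup.mem_center_iff.1 (CExt.incl_mem_center b) _).symm).mul_pow, ← map_pow, hb, map_inv,
      ha, inv_mul_cancel]
  let φ := monoidHomOfForallMemZpowers hg (orderOf_dvd_of_pow_eq_one hy)
  refine CExt.cls_eq_one_of_hom φ fun h => ?_
  obtain ⟨z, rfl⟩ := hg h
  show CExt.proj c (φ (g ^ z)) = g ^ z
  rw [map_zpow, map_zpow, monoidHomOfForallMemZpowers_apply_gen, map_mul, CExt.proj_sec]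
  simp [CExt.incl]

/-- **Groups with cyclic Sylow subgroups have trivial multiplier.** -/
theorem eq_one_of_cyclic_sylows [Finite G]
    (h : ∀ (p : ℕ) [Fact p.Prime] (P : Sylow p G), IsCyclic (P : Subgroup G)) (x : H2 G kˣ) :
    x = 1 := by
  by_contra hne
  obtain ⟨p, hp, hdvd⟩ := Nat.exists_prime_and_dvd (mt orderOf_eq_one_iff.1 hne)
  haveI := Fact.mk hp
  obtain ⟨P⟩ : Nonempty (Sylow p G) := inferInstance
  haveI := h p P
  have hy : orderOf (x ^ (orderOf x / p)) = p :=
    orderOf_pow_orderOf_div (orderOf_pos x).ne' hdvd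
  have hy1 := eq_one_of_res_sylow P (x := x ^ (orderOf x / p)) (j := 1)
    (by rw [pow_one]; exact orderOf_dvd_iff_pow_eq_one.1 (dvd_of_eq hy)) (eq_one_of_isCyclic _)
  rw [hy1, orderOf_one] at hy
  exact hp.one_lt.ne hy

/-- A homomorphic choice of cocycles. -/
theorem exists_section [Finite G] :
    ∃ σ : H2 G kˣ →* cocycles G kˣ, ∀ x, cls G kˣ (σ x) = x := by
  classical
  obtain ⟨ι, hι, n, hn, ⟨e⟩⟩ := CommGroup.equiv_prod_multiplicative_zmod_of_finite (H2 G kˣ)
  set u : ∀ i, Multiplicative (ZMod (n i)) := fun i => Multiplicative.ofAdd 1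
  have hu : ∀ i, orderOf (u i) = n i := fun i => by
    rw [orderOf_ofAdd_eq_addOrderOf, ZMod.addOrderOf_one]
  have hgen : ∀ i, ∀ z, z ∈ Subgroup.zpowers (u i) := fun i z =>
    ⟨(Multiplicative.toAdd z).cast, by
      show Multiplicative.ofAdd ((Multiplicative.toAdd z).cast • (1 : ZMod (n i))) = z
      rw [zsmul_one, ZMod.intCast_zmod_cast, ofAdd_toAdd]⟩
  have hrep : ∀ i, ∃ c : cocycles G kˣ, cls G kˣ c = e.symm (Pi.mulSingle i (u i)) ∧
      c ^ n i = 1 := fun i => by
    refine exists_rep_pow (by have := hn i; omega) ?_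
    rw [← map_pow, ← Pi.mulSingle_pow, orderOf_dvd_iff_pow_eq_one.1 (dvd_of_eq (hu i)),
      Pi.mulSingle_one, map_one]
  choose c hc hc' using hrep
  let φ : ∀ i, Multiplicative (ZMod (n i)) →* cocycles G kˣ := fun i =>
    monoidHomOfForallMemZpowers (hgen i) (by rw [hu]; exact orderOf_dvd_of_pow_eq_one (hc' i))
  have hφ : ∀ i z, cls G kˣ (φ i z) = e.symm (Pi.mulSingle i z) := fun i z => by
    obtain ⟨m, rfl⟩ := hgen i z
    simp only [φ, map_zpow, Pi.mulSingle_zpow, monoidHomOfForallMemZpowers_apply_gen, hc]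
  refine ⟨(∏ i, (φ i).comp (Pi.evalMonoidHom _ i)).comp e.toMonoidHom, fun x => ?_⟩
  rw [MonoidHom.comp_apply, MonoidHom.finsetProd_apply, map_prod]
  simp only [MonoidHom.comp_apply, Pi.evalMonoidHom_apply, hφ]
  rw [← map_prod, Finset.univ_prod_mulSingle]
  exact e.symm_apply_apply x

end FA.SchurCover

end
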