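import Fermat.Agent.SchurCover.Cover
import Mathlib.GroupTheory.Schreier

/-!
# Stem extensions and the universal property of the cover of a perfect group

A central extension whose kernel lies in the commutator subgroup has kernel of order dividing that
of the multiplier. For a perfect group the cover is perfect and maps uniquely to every central
extension.
-/

set_option autoImplicit false
set_option linter.style.haveILetI false

noncomputable section

open Subgroup
open scoped commutatorElement

namespace FA.SchurCover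

variable {G : Type*} [Group G] [Finite G] (k : Type*) [Field k] [IsAlgClosed k] [CharZero k]

omit [Finite G] in
/-- Commutators in a central extension only depend on the images. -/
theorem commutatorElement_congr {E : Type*} [Group E] {a a' b b' z w : E}
    (hz : z ∈ center E) (hw : w ∈ center E) (ha : a = a' * z) (hb : b = b' * w) :
    ⁅a, b⁆ = ⁅a', b'⁆ := by
  have hzc := mem_center_iff.1 hz
  have hwc := mem_center_iff.1 hw
  subst ha hb
  calc a' * z * (b' * w) * (a' * z)⁻¹ * (b' * w)⁻¹
      = a' * (z * b') * w * z⁻¹ * a'⁻¹ * w⁻¹ * b'⁻¹ := by group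
    _ = a' * b' * (z * w * z⁻¹) * a'⁻¹ * w⁻¹ * b'⁻¹ := by rw [← hzc b']; group
    _ = a' * b' * (w * a'⁻¹) * w⁻¹ * b'⁻¹ := by rw [hwc z, mul_inv_cancel_right]; group
    _ = a' * b' * a'⁻¹ * b'⁻¹ := by rw [← hwc a'⁻¹]; group

/-- **Schur's bound.** -/
theorem card_ker_dvd {E : Type*} [Group E] (π : E →* G) (hsurj : Function.Surjective π)
    (hz : π.ker ≤ center E) (hc : π.ker ≤ commutator E) :
    Finite π.ker ∧ Nat.card π.ker ∣ Nat.card (H2 G kˣ) := by
  choose s hs using hsurj
  haveI : Finite (commutatorSet E) := by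
    refine Finite.Set.subset (Set.range fun x : G × G => ⁅s x.1, s x.2⁆) ?_
    rintro _ ⟨a, b, rfl⟩
    have key : ∀ a : E, (s (π a))⁻¹ * a ∈ center E := fun a => hz (by simp [MonoidHom.mem_ker, hs])
    exact ⟨(π a, π b), (commutatorElement_congr (key a) (key b)
      (mul_inv_cancel_left _ _).symm (mul_inv_cancel_left _ _).symm).symm⟩
  haveI hfin : Finite π.ker :=
    Finite.of_injective (Subgroup.inclusion hc) (Subgroup.inclusion_injective hc)
  letI : CommGroup π.ker :=
    { (inferInstance : Group π.ker) with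
      mul_comm := fun a b => Subtype.ext (mem_center_iff.1 (hz b.2) a) }
  let T : (π.ker →* kˣ) →* H2 G kˣ :=
    MonoidHom.mk' (fun χ => cls G kˣ (secCocycle π hz s hs χ)) fun χ χ' => by
      rw [← map_mul]
      rfl
  have hT : Function.Injective T := (injective_iff_map_eq_one T).2 fun χ hχ => by
    obtain ⟨f, hf⟩ := cls_eq_one.1 hχ
    have hf' : ∀ g h, χ ⟨_, secCocycle_mem π s hs g h⟩ * f (g * h) = f g * f h := fun g h => by
      rw [← secCocycle_apply π hz s hs χ, ← hf, cobound_apply, div_mul_cancel]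
    have hmem : ∀ e : E, e * (s (π e))⁻¹ ∈ π.ker := fun e => by simp [MonoidHom.mem_ker, hs]
    let Ψ : E →* kˣ := MonoidHom.mk' (fun e => χ ⟨_, hmem e⟩ * f (π e)) fun a b => by
      have hsplit : (⟨_, hmem (a * b)⟩ : π.ker) =
          ⟨_, hmem a⟩ * ⟨_, hmem b⟩ * ⟨_, secCocycle_mem π s hs (π a) (π b)⟩ := by
        refine Subtype.ext ?_
        simp only [Subgroup.coe_mul, map_mul]
        calc a * b * (s (π a * π b))⁻¹
            = a * (b * (s (π b))⁻¹) * (s (π b) * (s (π a * π b))⁻¹) := by group
          _ = a * (s (π a))⁻¹ * (s (π a) * (b * (s (π b))⁻¹)) *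
                (s (π b) * (s (π a * π b))⁻¹) := by group
          _ = _ := by rw [mem_center_iff.1 (hz (hmem b)) (s (π a))]; group
      show χ ⟨_, hmem (a * b)⟩ * f (π (a * b)) = _
      rw [hsplit, map_mul, map_mul, map_mul π, mul_assoc, hf']
      exact mul_mul_mul_comm _ _ _ _
    have hf1 : f 1 = χ ⟨_, secCocycle_mem π s hs 1 1⟩ := by
      have := hf' 1 1
      simp only [mul_one] at this ⊢
      exact (mul_right_cancel this).symm
    refine MonoidHom.ext fun d => ?_
    have h1 : Ψ d = 1 := MonoidHom.mem_ker.1 (Abelianization.commutator_subset_ker Ψ (hc d.2))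
    rw [MonoidHom.one_apply, ← h1]
    show χ d = χ ⟨_, hmem d⟩ * f (π d)
    simp only [MonoidHom.mem_ker.1 d.2, hf1]
    rw [← map_mul]
    refine congrArg χ (Subtype.ext ?_)
    simp [mul_assoc]
  refine ⟨hfin, ?_⟩
  rw [← CommGroup.card_monoidHom_of_hasEnoughRootsOfUnity π.ker k]
  exact Subgroup.card_dvd_of_injective T hT

omit [Finite G] [Field k] [IsAlgClosed k] [CharZero k] in
/-- A central extension of a perfect group is perfect modulo its kernel. -/
theorem commutator_eq_top_of_perfect {E : Type*} [Group E] (π : E →* G)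
    (hsurj : Function.Surjective π) (hc : π.ker ≤ commutator E) (hG : commutator G = ⊤) :
    commutator E = ⊤ := by
  refine eq_top_iff.2 fun x _ => ?_
  have h : π x ∈ (commutator E).map π := by
    rw [commutator_def, Subgroup.map_commutator, Subgroup.map_top_of_surjective π hsurj,
      ← commutator_def, hG]
    exact Subgroup.mem_top _
  obtain ⟨y, hy, hyx⟩ := h
  have hk : y⁻¹ * x ∈ commutator E := hc (by simp [MonoidHom.mem_ker, hyx])
  simpa using (commutator E).mul_mem hy hk

/-- **The cover of a perfect group is perfect.** -/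
theorem cover_perfect (hG : commutator G = ⊤) : commutator (Cover G k) = ⊤ :=
  commutator_eq_top_of_perfect _ CExt.proj_surjective (ker_le_commutator G k) hG

/-- **The cover of a perfect group is universal.** -/
theorem existsUnique_map (hG : commutator G = ⊤) {E : Type*} [Group E] (π : E →* G)
    (hsurj : Function.Surjective π) (hz : π.ker ≤ center E) :
    ∃! φ : Cover G k →* E, π.comp φ = CExt.proj (tautCocycle G k) := by
  set p := CExt.proj (tautCocycle G k)
  refine existsUnique_of_exists_of_unique ?_ ?_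
  · set P := (p.comp (MonoidHom.fst (Cover G k) E)).eqLocus (π.comp (MonoidHom.snd (Cover G k) E))
    set Q : Subgroup (Cover G k × E) := ⁅P, P⁆
    have hQP : Q ≤ P := commutator_le_self P
    have hPfst : P.map (MonoidHom.fst (Cover G k) E) = ⊤ := eq_top_iff.2 fun c _ => by
      obtain ⟨e, he⟩ := hsurj (p c)
      exact ⟨(c, e), he.symm, rfl⟩
    have hQfst : Q.map (MonoidHom.fst (Cover G k) E) = ⊤ := by
      rw [Subgroup.map_commutator, hPfst, ← commutator_def, cover_perfect k hG]
    have hcen : ∀ d ∈ P, d.1 ∈ p.ker → d ∈ center (Cover G k × E) := fun d hd h1 => by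
      have h2 : d.2 ∈ π.ker := MonoidHom.mem_ker.2 (hd.symm.trans (MonoidHom.mem_ker.1 h1))
      exact mem_center_iff.2 fun x => Prod.ext (mem_center_iff.1 (CExt.ker_proj_le_center h1) x.1)
        (mem_center_iff.1 (hz h2) x.2)
    have hPQ : ⁅P, P⁆ ≤ ⁅Q, Q⁆ := commutator_le.2 fun a ha b hb => by
      have key : ∀ a ∈ P, ∃ q ∈ Q, q⁻¹ * a ∈ center (Cover G k × E) := fun a ha => by
        obtain ⟨q, hq, hqa⟩ : a.1 ∈ Q.map (MonoidHom.fst (Cover G k) E) :=
          hQfst ▸ Subgroup.mem_top _
        refine ⟨q, hq, hcen _ (P.mul_mem (P.inv_mem (hQP hq)) ha) ?_⟩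
        have : q.1 = a.1 := hqa
        simp [this]
      obtain ⟨q, hq, hqz⟩ := key a ha
      obtain ⟨r, hr, hrz⟩ := key b hb
      rw [commutatorElement_congr hqz hrz (mul_inv_cancel_left _ _).symm
        (mul_inv_cancel_left _ _).symm]
      exact commutator_mem_commutator hq hr
    have hperf : commutator Q = ⊤ := by
      refine eq_top_iff.2 fun x _ => ?_
      have h : (x : Cover G k × E) ∈ (commutator Q).map Q.subtype := by
        rw [Subgroup.map_subtype_commutator]
        exact hPQ x.2
      obtain ⟨y, hy, hyx⟩ := h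
      exact Subtype.ext hyx ▸ hy
    set τ : Q →* Cover G k := (MonoidHom.fst (Cover G k) E).comp Q.subtype
    have hτ : Function.Surjective τ := fun c => by
      obtain ⟨q, hq, hqc⟩ : c ∈ Q.map (MonoidHom.fst (Cover G k) E) := hQfst ▸ Subgroup.mem_top _
      exact ⟨⟨q, hq⟩, hqc⟩
    set ρ : Q →* G := p.comp τ
    obtain ⟨_, hdvd⟩ := card_ker_dvd k ρ (CExt.proj_surjective.comp hτ)
      (fun x hx => mem_center_iff.2 fun y => Subtype.ext
        (mem_center_iff.1 (hcen x (hQP x.2) hx) y.1))
      (fun x _ => hperf ▸ Subgroup.mem_top x)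
    let τ' : ρ.ker →* p.ker := MonoidHom.mk' (fun x => ⟨τ x, x.2⟩) fun _ _ => rfl
    have hτ' : Function.Surjective τ' := fun c => by
      obtain ⟨q, hq⟩ := hτ c
      exact ⟨⟨q, by rw [MonoidHom.mem_ker, MonoidHom.comp_apply, hq]; exact c.2⟩, Subtype.ext hq⟩
    have hcard : Nat.card ρ.ker = Nat.card p.ker :=
      le_antisymm (card_ker_cover G k ▸ Nat.le_of_dvd Nat.card_pos hdvd)
        (Nat.card_le_card_of_surjective τ' hτ')
    have hτ'inj : Function.Injective τ' :=
      ((Nat.bijective_iff_surjective_and_card τ').2 ⟨hτ', hcard⟩).1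
    have hinj : Function.Injective τ := (injective_iff_map_eq_one τ).2 fun q hq => by
      have h : τ' ⟨q, by rw [MonoidHom.mem_ker, MonoidHom.comp_apply, hq, map_one]⟩ = τ' 1 :=
        Subtype.ext (hq.trans (map_one τ).symm)
      exact congrArg Subtype.val (hτ'inj h)
    set e := MulEquiv.ofBijective τ ⟨hinj, hτ⟩
    refine ⟨((MonoidHom.snd (Cover G k) E).comp Q.subtype).comp e.symm.toMonoidHom,
      MonoidHom.ext fun c => ?_⟩
    have h1 : p ((e.symm c : Q) : Cover G k × E).1 = π ((e.symm c : Q) : Cover G k × E).2 :=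
      hQP (e.symm c).2
    have h2 : ((e.symm c : Q) : Cover G k × E).1 = c := e.apply_symm_apply c
    rw [h2] at h1
    exact h1.symm
  · intro φ ψ hφ hψ
    have hmem : ∀ x, φ x * (ψ x)⁻¹ ∈ center E := fun x => hz (by
      rw [MonoidHom.mem_ker, map_mul, map_inv, show π (φ x) = p x from DFunLike.congr_fun hφ x,
        show π (ψ x) = p x from DFunLike.congr_fun hψ x, mul_inv_cancel])
    letI : CommGroup (center E) :=
      { (inferInstance : Group (center E)) with
        mul_comm := fun a b => Subtype.ext (mem_center_iff.1 b.2 a) }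
    let δ : Cover G k →* center E := MonoidHom.mk' (fun x => ⟨_, hmem x⟩) fun x y =>
      Subtype.ext (by
        show φ (x * y) * (ψ (x * y))⁻¹ = φ x * (ψ x)⁻¹ * (φ y * (ψ y)⁻¹)
        rw [map_mul, map_mul, mul_inv_rev]
        calc φ x * φ y * ((ψ y)⁻¹ * (ψ x)⁻¹) = φ x * ((φ y * (ψ y)⁻¹) * (ψ x)⁻¹) := by group
          _ = _ := by rw [← mem_center_iff.1 (hmem y)]; group)
    refine MonoidHom.ext fun x => mul_inv_eq_one.1 ?_
    exact congrArg Subtype.val (MonoidHom.mem_ker.1
      (Abelianization.commutator_subset_ker δ (cover_perfect k hG ▸ Subgroup.mem_top x)))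

end FA.SchurCover

end
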